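/-
S15 / Dict / AN : coset decomposition of an overlattice; `G_r` and `℘` of the overlattice.
Architect helper260, proofs helper230.
-/
import Mathlib

set_option autoImplicit false

namespace Fermat.Agent.S15.Dict.AN

/-- `L'` is the disjoint union of the cosets `c i + L`. -/
def IsCosetDecomp (L L' : PeriodPair) {ι : Type} (c : ι → ℂ) : Prop :=
  ∃ e : ι × L.lattice ≃ L'.lattice, ∀ p, ((e p : L'.lattice) : ℂ) = c p.1 + (p.2 : ℂ)

variable {L L' : PeriodPair} {ι : Type} [Fintype ι] {c : ι → ℂ}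

/-- `G_r(L') = ∑_i ∑_{l ∈ L} (l + c_i)^{-r}`.  Proof: `L'.G r = ∑' l' : L'.lattice, (l'^r)⁻¹`
(summable: `PeriodPair.hasSum_sumInvPow 0`), transport along `e` (`Equiv.tsum_eq`),
`Summable.tsum_prod` / `tsum_fintype`. -/
theorem IsCosetDecomp.G_eq (h : IsCosetDecomp L L' c) {r : ℕ} (hr : 2 < r) :
    L'.G r = ∑ i, L.sumInvPow (- c i) r := by
  obtain ⟨e, he⟩ := h
  have HS : HasSum (fun l' : L'.lattice => (((l' : ℂ) - 0) ^ r)⁻¹) (L'.sumInvPow 0 r) :=
    L'.hasSum_sumInvPow 0 hr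
  rw [PeriodPair.sumInvPow_zero] at HS
  have HS2 : HasSum (fun p : ι × L.lattice => ((((e p : L'.lattice) : ℂ) - 0) ^ r)⁻¹) (L'.G r) :=
    (e.hasSum_iff).mpr HS
  have Hi : ∀ i, HasSum (fun l : L.lattice => ((((e (i, l) : L'.lattice) : ℂ) - 0) ^ r)⁻¹)
      (L.sumInvPow (- c i) r) := by
    intro i
    have h1 := L.hasSum_sumInvPow (- c i) hr
    refine h1.congr_fun ?_
    intro l
    rw [he]
    congr 2
    ring
  exact (HS2.prod_fiberwise Hi).unique (hasSum_fintype _)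

/-- `℘_{L'}(z) = ∑_i (℘_L(z - c_i) - ℘_L(- c_i))` (true for all `z`, with the junk values).
Proof: `PeriodPair.hasSum_weierstrassP` for `L'` at `z`, transported along `e`; for fixed `i`,
`∑_l (1/(z - c_i - l)² - 1/(c_i + l)²)` is the difference of `hasSum_weierstrassP` for `L` at
`z - c_i` and at `- c_i`. -/
theorem IsCosetDecomp.P_eq (h : IsCosetDecomp L L' c) (z : ℂ) :
    L'.weierstrassP z = ∑ i, (L.weierstrassP (z - c i) - L.weierstrassP (- c i)) := by
  obtain ⟨e, he⟩ := h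
  have HS := L'.hasSum_weierstrassP z
  have HS2 : HasSum (fun p : ι × L.lattice =>
      (1 / (z - ((e p : L'.lattice) : ℂ)) ^ 2 - 1 / ((e p : L'.lattice) : ℂ) ^ 2))
      (L'.weierstrassP z) := (e.hasSum_iff).mpr HS
  have Hi : ∀ i, HasSum (fun l : L.lattice =>
      (1 / (z - ((e (i, l) : L'.lattice) : ℂ)) ^ 2 - 1 / ((e (i, l) : L'.lattice) : ℂ) ^ 2))
      (L.weierstrassP (z - c i) - L.weierstrassP (- c i)) := by
    intro i
    have h1 := (L.hasSum_weierstrassP (z - c i)).sub (L.hasSum_weierstrassP (- c i))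
    refine h1.congr_fun ?_
    intro l
    rw [he]
    have e1 : z - (c i + (l : ℂ)) = z - c i - l := by ring
    have e2 : (- c i - (l : ℂ)) ^ 2 = (c i + l) ^ 2 := by ring
    simp only [e1, e2]
    ring
  exact (HS2.prod_fiberwise Hi).unique (hasSum_fintype _)

end Fermat.Agent.S15.Dict.AN
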