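/-
S15 / Dict / AN : cyclic overlattices `L' = L + ℤ z0`, basic facts.  Architect helper260.
-/
import Fermat.Agent.S15.Dict.AN.Coset.Defs
import Fermat.Agent.S15.Dict.AN.Half.Defs

set_option autoImplicit false

namespace Fermat.Agent.S15.Dict.AN

/-- `L' = L + ℤ z0`, `z0` of exact odd order `N` modulo `L`. -/
structure CyclicData (L L' : PeriodPair) (N : ℕ) (z0 : ℂ) : Prop where
  odd : Odd N
  lattice_eq : L'.lattice = L.lattice ⊔ Submodule.span ℤ {z0}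
  notMem : ∀ k : ℕ, 1 ≤ k → k < N → (k : ℂ) * z0 ∉ L.lattice
  mem : (N : ℂ) * z0 ∈ L.lattice

variable {L L' : PeriodPair} {N : ℕ} {z0 : ℂ}

theorem CyclicData.le (D : CyclicData L L' N z0) : L.lattice ≤ L'.lattice := by
  rw [D.lattice_eq]
  exact le_sup_left

theorem CyclicData.int_mul_mem (D : CyclicData L L' N z0) (k : ℤ) :
    (k : ℂ) * z0 ∈ L'.lattice := by
  rw [D.lattice_eq]
  apply Submodule.mem_sup_right
  rw [← zsmul_eq_mul]
  exact Submodule.smul_mem _ _ (Submodule.mem_span_singleton_self z0)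

theorem CyclicData.nat_mul_mem (D : CyclicData L L' N z0) (k : ℕ) :
    (k : ℂ) * z0 ∈ L'.lattice := by
  simpa using D.int_mul_mem (k : ℤ)

theorem Cyclic_pos (D : CyclicData L L' N z0) : 0 < N := D.odd.pos

/-- multiples of `N z0` lie in `L`. -/
theorem Cyclic_mul_mem (D : CyclicData L L' N z0) (a : ℤ) :
    ((N : ℤ) * a : ℤ) * z0 ∈ L.lattice := by
  have h := Submodule.smul_mem L.lattice a D.mem
  rw [zsmul_eq_mul] at h
  have e : (((N : ℤ) * a : ℤ) : ℂ) * z0 = (a : ℂ) * ((N : ℂ) * z0) := by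
    push_cast
    ring
  rw [e]
  exact h

/-- `m z0 ∈ L ↔ N ∣ m`. -/
theorem CyclicData.int_mul_mem_iff (D : CyclicData L L' N z0) (m : ℤ) :
    (m : ℂ) * z0 ∈ L.lattice ↔ (N : ℤ) ∣ m := by
  have hN : (0 : ℤ) < N := by exact_mod_cast Cyclic_pos D
  constructor
  · intro h
    by_contra hnd
    have h0 : 0 ≤ m % N := Int.emod_nonneg _ hN.ne'
    have h1 : m % N < N := Int.emod_lt_of_pos _ hN
    have h2 : m % N ≠ 0 := fun h => hnd (Int.dvd_of_emod_eq_zero h)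
    obtain ⟨k, hk⟩ := Int.eq_ofNat_of_zero_le h0
    have hk1 : 1 ≤ k := by omega
    have hk2 : k < N := by omega
    apply D.notMem k hk1 hk2
    have e : (k : ℂ) * z0 = (m : ℂ) * z0 - (((N : ℤ) * (m / N) : ℤ) : ℂ) * z0 := by
      have h3 : (m : ℤ) = N * (m / N) + k := by rw [← hk]; exact (Int.mul_ediv_add_emod m N).symm
      have h4 : (m : ℂ) = (((N : ℤ) * (m / N) : ℤ) : ℂ) + (k : ℂ) := by exact_mod_cast h3
      rw [h4]
      ring
    rw [e]
    exact sub_mem h (Cyclic_mul_mem D _)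
  · rintro ⟨a, rfl⟩
    exact Cyclic_mul_mem D a

/-- elements of `L'` are `l + m z0`. -/
theorem Cyclic_exists (D : CyclicData L L' N z0) {l : ℂ} (hl : l ∈ L'.lattice) :
    ∃ l₀ ∈ L.lattice, ∃ m : ℤ, l = l₀ + (m : ℂ) * z0 := by
  rw [D.lattice_eq, Submodule.mem_sup] at hl
  obtain ⟨l₀, hl₀, y, hy, rfl⟩ := hl
  obtain ⟨m, rfl⟩ := Submodule.mem_span_singleton.1 hy
  exact ⟨l₀, hl₀, m, by rw [zsmul_eq_mul]⟩

theorem CyclicData.mul_mem (D : CyclicData L L' N z0) {l : ℂ} (hl : l ∈ L'.lattice) :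
    (N : ℂ) * l ∈ L.lattice := by
  obtain ⟨l₀, hl₀, m, rfl⟩ := Cyclic_exists D hl
  have h1 : (N : ℂ) * l₀ ∈ L.lattice := by
    have := Submodule.smul_mem L.lattice (N : ℤ) hl₀
    rwa [zsmul_eq_mul, Int.cast_natCast] at this
  have h2 := Cyclic_mul_mem D m
  have e : (N : ℂ) * (l₀ + (m : ℂ) * z0) = (N : ℂ) * l₀ + (((N : ℤ) * m : ℤ) : ℂ) * z0 := by
    push_cast
    ring
  rw [e]
  exact add_mem h1 h2

/-- every class of `L'/L` is represented by `k z0`, `k < N` -/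
theorem CyclicData.exists_sub_mem (D : CyclicData L L' N z0) {l : ℂ} (hl : l ∈ L'.lattice) :
    ∃ k : ℕ, k < N ∧ l - (k : ℂ) * z0 ∈ L.lattice := by
  have hN : (0 : ℤ) < N := by exact_mod_cast Cyclic_pos D
  obtain ⟨l₀, hl₀, m, rfl⟩ := Cyclic_exists D hl
  have h0 : 0 ≤ m % N := Int.emod_nonneg _ hN.ne'
  have h1 : m % N < N := Int.emod_lt_of_pos _ hN
  obtain ⟨k, hk⟩ := Int.eq_ofNat_of_zero_le h0
  refine ⟨k, by omega, ?_⟩
  have h3 : (m : ℤ) = N * (m / N) + k := by rw [← hk]; exact (Int.mul_ediv_add_emod m N).symm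
  have h4 : (m : ℂ) = (((N : ℤ) * (m / N) : ℤ) : ℂ) + (k : ℂ) := by exact_mod_cast h3
  have e : l₀ + (m : ℂ) * z0 - (k : ℂ) * z0 = l₀ + (((N : ℤ) * (m / N) : ℤ) : ℂ) * z0 := by
    rw [h4]
    ring
  rw [e]
  exact add_mem hl₀ (Cyclic_mul_mem D _)

/-- every class of `L'/L` is represented by `- k z0`, `k < N` -/
theorem CyclicData.exists_add_mem (D : CyclicData L L' N z0) {l : ℂ} (hl : l ∈ L'.lattice) :
    ∃ k : ℕ, k < N ∧ l + (k : ℂ) * z0 ∈ L.lattice := by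
  obtain ⟨k, hk, h⟩ := D.exists_sub_mem (neg_mem hl)
  refine ⟨k, hk, ?_⟩
  have e : l + (k : ℂ) * z0 = -(-l - (k : ℂ) * z0) := by ring
  rw [e]
  exact neg_mem h

/-- uniqueness of the representative -/
theorem CyclicData.eq_of_sub_mem (D : CyclicData L L' N z0) {k k' : ℕ} (hk : k < N) (hk' : k' < N)
    (h : (k : ℂ) * z0 - (k' : ℂ) * z0 ∈ L.lattice) : k = k' := by
  have e : (k : ℂ) * z0 - (k' : ℂ) * z0 = (((k : ℤ) - (k' : ℤ) : ℤ) : ℂ) * z0 := by
    push_cast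
    ring
  rw [e, D.int_mul_mem_iff] at h
  obtain ⟨a, ha⟩ := h
  have hN : (0 : ℤ) < N := by exact_mod_cast Cyclic_pos D
  have hk1 : (k : ℤ) < N := by exact_mod_cast hk
  have hk2 : (k' : ℤ) < N := by exact_mod_cast hk'
  have ha0 : a = 0 := by
    by_contra hne
    rcases lt_or_gt_of_ne hne with h1 | h1
    · have : (N : ℤ) * a ≤ N * (-1) := mul_le_mul_of_nonneg_left (by omega) hN.le
      omega
    · have : (N : ℤ) * 1 ≤ N * a := mul_le_mul_of_nonneg_left (by omega) hN.le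
      omega
  rw [ha0, mul_zero] at ha
  omega

theorem CyclicData.isHalf (D : CyclicData L L' N z0) {h₁ h₂ h₃ : ℂ} (H : IsHalf L h₁ h₂ h₃) :
    IsHalf L' h₁ h₂ h₃ :=
  H.of_le D.le D.odd fun _ hl => D.mul_mem hl

theorem CyclicData.isCosetDecomp (D : CyclicData L L' N z0) :
    IsCosetDecomp L L' (fun k : Fin N => ((k : ℕ) : ℂ) * z0) := by
  let f : Fin N × L.lattice → L'.lattice := fun p =>
    ⟨((p.1 : ℕ) : ℂ) * z0 + (p.2 : ℂ), add_mem (D.nat_mul_mem _) (D.le p.2.2)⟩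
  have hf : Function.Bijective f := by
    constructor
    · rintro ⟨k, l⟩ ⟨k', l'⟩ h
      have h1 : ((k : ℕ) : ℂ) * z0 + (l : ℂ) = ((k' : ℕ) : ℂ) * z0 + (l' : ℂ) :=
        congrArg Subtype.val h
      have h2 : ((k : ℕ) : ℂ) * z0 - ((k' : ℕ) : ℂ) * z0 = (l' : ℂ) - (l : ℂ) := by
        linear_combination h1
      have h3 : (k : ℕ) = (k' : ℕ) := D.eq_of_sub_mem k.2 k'.2 (by
        rw [h2]
        exact sub_mem l'.2 l.2)
      have h4 : k = k' := Fin.ext h3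
      subst h4
      have h5 : (l : ℂ) = (l' : ℂ) := by linear_combination h1
      rw [Subtype.ext h5]
    · rintro ⟨l, hl⟩
      obtain ⟨k, hk, h⟩ := D.exists_sub_mem hl
      refine ⟨(⟨k, hk⟩, ⟨_, h⟩), Subtype.ext ?_⟩
      show (k : ℂ) * z0 + (l - (k : ℂ) * z0) = l
      ring
  exact ⟨Equiv.ofBijective f hf, fun p => rfl⟩

end Fermat.Agent.S15.Dict.AN
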