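/-
S15 / Dict / AN : the coset decomposition of `½L` over `L`.  Architect helper260.
-/
import Fermat.Agent.S15.Dict.AN.Coset.Defs
import Fermat.Agent.S15.Dict.AN.Scale

set_option autoImplicit false

namespace Fermat.Agent.S15.Dict.AN

theorem Half_mem_iff (L : PeriodPair) {x : ℂ} :
    x ∈ (scale (1 / 2) (by norm_num) L).lattice ↔
      ∃ m n : ℤ, (m : ℂ) * (L.ω₁ / 2) + (n : ℂ) * (L.ω₂ / 2) = x := by
  rw [PeriodPair.mem_lattice]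
  simp only [scale_ω₁, scale_ω₂]
  constructor <;> rintro ⟨m, n, h⟩ <;> exact ⟨m, n, by rw [← h]; ring⟩

theorem Half_c_eq (L : PeriodPair) (i : Fin 4) :
    (![0, L.ω₁ / 2, L.ω₂ / 2, (L.ω₁ + L.ω₂) / 2] : Fin 4 → ℂ) i =
      (((![0, 1, 0, 1] : Fin 4 → ℤ) i : ℤ) : ℂ) * (L.ω₁ / 2) +
        (((![0, 0, 1, 1] : Fin 4 → ℤ) i : ℤ) : ℂ) * (L.ω₂ / 2) := by
  fin_cases i <;> simp
  ring

theorem Half_inj (i j : Fin 4)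
    (h1 : ((((![0, 1, 0, 1] : Fin 4 → ℤ) i - (![0, 1, 0, 1] : Fin 4 → ℤ) j : ℤ) : ℚ) / 2).den = 1)
    (h2 : ((((![0, 0, 1, 1] : Fin 4 → ℤ) i - (![0, 0, 1, 1] : Fin 4 → ℤ) j : ℤ) : ℚ) / 2).den = 1) :
    i = j := by
  revert h1 h2
  fin_cases i <;> fin_cases j <;> norm_num

theorem Half_exists (m n : ℤ) : ∃ (i : Fin 4) (m' n' : ℤ),
    m = (![0, 1, 0, 1] : Fin 4 → ℤ) i + 2 * m' ∧ n = (![0, 0, 1, 1] : Fin 4 → ℤ) i + 2 * n' := by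
  rcases Int.emod_two_eq_zero_or_one m with hm | hm <;>
    rcases Int.emod_two_eq_zero_or_one n with hn | hn
  · exact ⟨0, m / 2, n / 2, by simp; omega, by simp; omega⟩
  · exact ⟨2, m / 2, n / 2, by simp; omega, by simp; omega⟩
  · exact ⟨1, m / 2, n / 2, by simp; omega, by simp; omega⟩
  · exact ⟨3, m / 2, n / 2, by simp; omega, by simp; omega⟩

/-- `½L = ⊔ (c + L)`, `c ∈ {0, ω₁/2, ω₂/2, (ω₁+ω₂)/2}`.
Proof: `Equiv.ofBijective`; an element of `½L` is `m ω₁/2 + n ω₂/2` (`PeriodPair.mem_lattice`),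
write `m = 2m' + r`, `n = 2n' + s`; injectivity from
`PeriodPair.mul_ω₁_add_mul_ω₂_mem_lattice`. -/
theorem isCosetDecomp_half (L : PeriodPair) :
    IsCosetDecomp L (scale (1 / 2) (by norm_num) L)
      (fun i : Fin 4 => ![0, L.ω₁ / 2, L.ω₂ / 2, (L.ω₁ + L.ω₂) / 2] i) := by
  have hmem : ∀ p : Fin 4 × L.lattice,
      (![0, L.ω₁ / 2, L.ω₂ / 2, (L.ω₁ + L.ω₂) / 2] : Fin 4 → ℂ) p.1 + (p.2 : ℂ) ∈
        (scale (1 / 2) (by norm_num) L).lattice := by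
    rintro ⟨i, l, hl⟩
    obtain ⟨m, n, rfl⟩ := PeriodPair.mem_lattice.1 hl
    rw [Half_mem_iff, Half_c_eq]
    refine ⟨(![0, 1, 0, 1] : Fin 4 → ℤ) i + 2 * m, (![0, 0, 1, 1] : Fin 4 → ℤ) i + 2 * n, ?_⟩
    push_cast
    ring
  refine ⟨Equiv.ofBijective (fun p => ⟨_, hmem p⟩) ⟨?_, ?_⟩, fun p => rfl⟩
  · rintro ⟨i, l⟩ ⟨j, l'⟩ h
    have h0 : (![0, L.ω₁ / 2, L.ω₂ / 2, (L.ω₁ + L.ω₂) / 2] : Fin 4 → ℂ) i + (l : ℂ) =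
        (![0, L.ω₁ / 2, L.ω₂ / 2, (L.ω₁ + L.ω₂) / 2] : Fin 4 → ℂ) j + (l' : ℂ) :=
      congrArg Subtype.val h
    have h1 : (((((![0, 1, 0, 1] : Fin 4 → ℤ) i - (![0, 1, 0, 1] : Fin 4 → ℤ) j : ℤ) : ℚ) / 2 : ℚ) : ℂ)
        * L.ω₁ + (((((![0, 0, 1, 1] : Fin 4 → ℤ) i - (![0, 0, 1, 1] : Fin 4 → ℤ) j : ℤ) : ℚ) / 2 : ℚ) : ℂ)
        * L.ω₂ ∈ L.lattice := by
      have h2 : (l' : ℂ) - (l : ℂ) ∈ L.lattice := sub_mem l'.2 l.2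
      have h3 : (l' : ℂ) - (l : ℂ) =
          (![0, L.ω₁ / 2, L.ω₂ / 2, (L.ω₁ + L.ω₂) / 2] : Fin 4 → ℂ) i -
          (![0, L.ω₁ / 2, L.ω₂ / 2, (L.ω₁ + L.ω₂) / 2] : Fin 4 → ℂ) j := by
        linear_combination -h0
      rw [h3, Half_c_eq, Half_c_eq] at h2
      convert h2 using 1
      push_cast
      ring
    rw [PeriodPair.mul_ω₁_add_mul_ω₂_mem_lattice] at h1
    obtain rfl := Half_inj i j h1.1 h1.2
    have h4 : (l : ℂ) = (l' : ℂ) := add_left_cancel h0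
    rw [Subtype.ext h4]
  · rintro ⟨x, hx⟩
    obtain ⟨m, n, rfl⟩ := (Half_mem_iff L).1 hx
    obtain ⟨i, m', n', hm, hn⟩ := Half_exists m n
    refine ⟨⟨i, ⟨(m' : ℂ) * L.ω₁ + (n' : ℂ) * L.ω₂, PeriodPair.mem_lattice.2 ⟨m', n', rfl⟩⟩⟩, ?_⟩
    apply Subtype.ext
    show (![0, L.ω₁ / 2, L.ω₂ / 2, (L.ω₁ + L.ω₂) / 2] : Fin 4 → ℂ) i +
      ((m' : ℂ) * L.ω₁ + (n' : ℂ) * L.ω₂) = (m : ℂ) * (L.ω₁ / 2) + (n : ℂ) * (L.ω₂ / 2)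
    rw [Half_c_eq, hm, hn]
    push_cast
    ring

end Fermat.Agent.S15.Dict.AN
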