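/-
S15 / Dict / AN : `g₂, g₃` of a cyclic overlattice.  Architect helper260.
-/
import Fermat.Agent.S15.Dict.AN.Coset.Cyclic
import Fermat.Agent.S15.Dict.AN.SumInvPow

set_option autoImplicit false

namespace Fermat.Agent.S15.Dict.AN

variable {L L' : PeriodPair} {N : ℕ} {z0 : ℂ}

/-- `G_r(L') = G_r(L) + ∑_{k=1}^{N-1} ∑_l (l + k z0)^{-r}`.
From `D.isCosetDecomp.G_eq`, `Fin.sum_univ_eq_sum_range`, `Finset.range_eq_Ico`,
`Finset.sum_eq_sum_Ico_succ_bot`, `PeriodPair.sumInvPow_zero`. -/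
theorem CyclicData.G_eq (D : CyclicData L L' N z0) {r : ℕ} (hr : 2 < r) :
    L'.G r = L.G r + ∑ k ∈ Finset.Ico 1 N, L.sumInvPow (-((k : ℂ) * z0)) r := by
  rw [D.isCosetDecomp.G_eq hr,
    Fin.sum_univ_eq_sum_range (fun k : ℕ => L.sumInvPow (-((k : ℂ) * z0)) r) N,
    Finset.range_eq_Ico, Finset.sum_eq_sum_Ico_succ_bot (Cyclic_pos D)]
  congr 1
  rw [Nat.cast_zero, zero_mul, neg_zero, PeriodPair.sumInvPow_zero]

theorem Invariants_notMem (D : CyclicData L L' N z0) {k : ℕ} (hk : k ∈ Finset.Ico 1 N) :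
    -((k : ℂ) * z0) ∉ L.lattice := by
  rw [Finset.mem_Ico] at hk
  intro h
  apply D.notMem k hk.1 hk.2
  have := neg_mem h
  rwa [neg_neg] at this

theorem CyclicData.g₂_eq (D : CyclicData L L' N z0) :
    L'.g₂ = L.g₂ + 10 * ∑ k ∈ Finset.Ico 1 N,
      (6 * L.weierstrassP ((k : ℂ) * z0) ^ 2 - L.g₂ / 2) := by
  have h : ∑ k ∈ Finset.Ico 1 N, L.sumInvPow (-((k : ℂ) * z0)) 4 =
      ∑ k ∈ Finset.Ico 1 N, (L.weierstrassP ((k : ℂ) * z0) ^ 2 - L.g₂ / 12) := by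
    apply Finset.sum_congr rfl
    intro k hk
    rw [sumInvPow_four L (Invariants_notMem D hk), PeriodPair.weierstrassP_neg]
  have e : L'.g₂ = L.g₂ + 60 * ∑ k ∈ Finset.Ico 1 N, L.sumInvPow (-((k : ℂ) * z0)) 4 := by
    rw [PeriodPair.g₂, PeriodPair.g₂, D.G_eq (by norm_num)]
    ring
  rw [e, h, Finset.mul_sum, Finset.mul_sum]
  congr 1
  apply Finset.sum_congr rfl
  intro k _
  ring

theorem CyclicData.g₃_eq (D : CyclicData L L' N z0) :
    L'.g₃ = L.g₃ + ∑ k ∈ Finset.Ico 1 N,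
      (140 * L.weierstrassP ((k : ℂ) * z0) ^ 3 - 21 * L.g₂ * L.weierstrassP ((k : ℂ) * z0)
        - 14 * L.g₃) := by
  have h : ∑ k ∈ Finset.Ico 1 N, L.sumInvPow (-((k : ℂ) * z0)) 6 =
      ∑ k ∈ Finset.Ico 1 N, (L.weierstrassP ((k : ℂ) * z0) ^ 3
        - 3 / 20 * L.g₂ * L.weierstrassP ((k : ℂ) * z0) - L.g₃ / 10) := by
    apply Finset.sum_congr rfl
    intro k hk
    rw [sumInvPow_six L (Invariants_notMem D hk), PeriodPair.weierstrassP_neg]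
  have e : L'.g₃ = L.g₃ + 140 * ∑ k ∈ Finset.Ico 1 N, L.sumInvPow (-((k : ℂ) * z0)) 6 := by
    rw [PeriodPair.g₃, PeriodPair.g₃, D.G_eq (by norm_num)]
    ring
  rw [e, h, Finset.mul_sum]
  congr 1
  apply Finset.sum_congr rfl
  intro k _
  ring

end Fermat.Agent.S15.Dict.AN
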